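import Mathlib
import Fermat.Prelude.Def_EllipticCurve_FrobeniusTrace

/-!
# Frobenius glue (part P3 of `exists_isFrobeniusAt`)

If `σ` acts as `b ↦ b ^ q` modulo the maximal ideal of a valuation subring `A` on the
Galois-stable subring `R' = {b | ∀ g, g b ∈ A}`, and every element of `A` is a fraction `b / s`
with `b, s ∈ R'`, `s` a unit of `A`, then `σ` is a Frobenius element at `A`.
-/

set_option autoImplicit false

open scoped Pointwise

namespace Fermat.Agent.Common

section General

variable {K L : Type*} [Field K] [Field L] [Algebra K L]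

/-- An element of `A` that is not a nonunit has valuation one. -/
theorem frobGlue_valuation_eq_one (A : ValuationSubring L) {s : L} (hs : s ∈ A)
    (hsu : s ∉ A.nonunits) : A.valuation s = 1 := by
  have h1 : A.valuation s ≤ 1 := (A.valuation_le_one_iff s).mpr hs
  have h2 : ¬ A.valuation s < 1 := fun h => hsu (A.mem_nonunits_iff.mpr h)
  exact le_antisymm h1 (not_lt.mp h2)

/-- `A.nonunits` absorbs multiplication by elements of `A`. -/
theorem frobGlue_mul_mem_nonunits (A : ValuationSubring L) {a m : L} (ha : a ∈ A)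
    (hm : m ∈ A.nonunits) : a * m ∈ A.nonunits := by
  rw [A.mem_nonunits_iff] at hm ⊢
  rw [map_mul]
  have h1 : A.valuation a ≤ 1 := (A.valuation_le_one_iff a).mpr ha
  calc A.valuation a * A.valuation m ≤ 1 * A.valuation m := by gcongr
    _ = A.valuation m := one_mul _
    _ < 1 := hm

theorem frobGlue_pow_mem_nonunits (A : ValuationSubring L) {t : L} (ht : t ∈ A.nonunits)
    {q : ℕ} (hq : q ≠ 0) : t ^ q ∈ A.nonunits := by
  obtain ⟨n, rfl⟩ := Nat.exists_eq_succ_of_ne_zero hq
  rw [pow_succ]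
  exact frobGlue_mul_mem_nonunits A (pow_mem (A.nonunits_subset ht) n) ht

theorem frobGlue_not_mem_nonunits_of_pow (A : ValuationSubring L) {s : L} (hs : s ∈ A)
    (hsu : s ∉ A.nonunits) (q : ℕ) : s ^ q ∉ A.nonunits := by
  rw [A.mem_nonunits_iff, map_pow, frobGlue_valuation_eq_one A hs hsu, one_pow]
  exact lt_irrefl _

/-- General form of the glue lemma. -/
theorem frob_glue_general (q : ℕ) (A : ValuationSubring L) (σ : L ≃ₐ[K] L)
    (hσ : ∀ b : L, (∀ g : L ≃ₐ[K] L, g b ∈ A) → σ b - b ^ q ∈ A.nonunits)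
    (hX : ∀ x ∈ A, ∃ s b : L, (∀ g : L ≃ₐ[K] L, g s ∈ A) ∧ (∀ g : L ≃ₐ[K] L, g b ∈ A) ∧
      s ∉ A.nonunits ∧ x * s = b) :
    A.IsFrobeniusAt σ q := by
  -- `q ≠ 0`
  have hq : q ≠ 0 := by
    rintro rfl
    have h0 := hσ 0 (fun g => by rw [map_zero]; exact A.zero_mem)
    rw [map_zero, pow_zero, zero_sub] at h0
    have h1 : (1 : L) ∈ A.nonunits := by simpa using A.nonunits.neg_mem h0
    rw [A.mem_nonunits_iff, map_one] at h1
    exact lt_irrefl _ h1
  -- images of units of `R'` are units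
  have key1 : ∀ s : L, (∀ g : L ≃ₐ[K] L, g s ∈ A) → s ∉ A.nonunits →
      σ s ∉ A.nonunits ∧ σ.symm s ∉ A.nonunits := by
    intro s hs hsu
    have hsA : s ∈ A := by simpa using hs 1
    refine ⟨fun h => ?_, fun h => ?_⟩
    · have h2 : s ^ q ∈ A.nonunits := by
        have := A.nonunits.sub_mem h (hσ s hs)
        simpa using this
      exact frobGlue_not_mem_nonunits_of_pow A hsA hsu q h2
    · have ht : ∀ g : L ≃ₐ[K] L, g (σ.symm s) ∈ A := fun g => by
        have := hs (σ.symm.trans g)
        simpa using this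
      have h2 := hσ (σ.symm s) ht
      rw [AlgEquiv.apply_symm_apply] at h2
      have h3 : s ∈ A.nonunits := by
        have := A.nonunits.add_mem h2 (frobGlue_pow_mem_nonunits A h hq)
        simpa using this
      exact hsu h3
  -- main computation
  have key2 : ∀ x ∈ A, σ x ∈ A ∧ σ.symm x ∈ A ∧ σ x - x ^ q ∈ A.nonunits := by
    intro x hx
    obtain ⟨s, b, hs, hb, hsu, hxs⟩ := hX x hx
    have hsA : s ∈ A := by simpa using hs 1
    have hbA : b ∈ A := by simpa using hb 1
    obtain ⟨hσs, hσs'⟩ := key1 s hs hsu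
    have hσsA : σ s ∈ A := hs σ
    have hσs'A : σ.symm s ∈ A := hs σ.symm
    have hv1 : A.valuation (σ s) = 1 := frobGlue_valuation_eq_one A hσsA hσs
    have hv2 : A.valuation (σ.symm s) = 1 := frobGlue_valuation_eq_one A hσs'A hσs'
    have hv0 : A.valuation s = 1 := frobGlue_valuation_eq_one A hsA hsu
    have e1 : σ x * σ s = σ b := by rw [← map_mul, hxs]
    have e2 : σ.symm x * σ.symm s = σ.symm b := by rw [← map_mul, hxs]
    refine ⟨?_, ?_, ?_⟩
    · rw [← A.valuation_le_one_iff]
      have : A.valuation (σ x) * A.valuation (σ s) = A.valuation (σ b) := by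
        rw [← map_mul, e1]
      rw [hv1, mul_one] at this
      rw [this]
      exact (A.valuation_le_one_iff _).mpr (hb σ)
    · rw [← A.valuation_le_one_iff]
      have : A.valuation (σ.symm x) * A.valuation (σ.symm s) = A.valuation (σ.symm b) := by
        rw [← map_mul, e2]
      rw [hv2, mul_one] at this
      rw [this]
      exact (A.valuation_le_one_iff _).mpr (hb σ.symm)
    · have e3 : (σ x - x ^ q) * (σ s * s ^ q) =
          s ^ q * (σ b - b ^ q) - b ^ q * (σ s - s ^ q) := by
        have hb' : b ^ q = x ^ q * s ^ q := by rw [← hxs, mul_pow]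
        rw [hb', ← e1]
        ring
      have h4 : (σ x - x ^ q) * (σ s * s ^ q) ∈ A.nonunits := by
        rw [e3]
        exact A.nonunits.sub_mem
          (frobGlue_mul_mem_nonunits A (pow_mem hsA q) (hσ b hb))
          (frobGlue_mul_mem_nonunits A (pow_mem hbA q) (hσ s hs))
      rw [A.mem_nonunits_iff, map_mul, map_mul, map_pow, hv1, hv0, one_pow, mul_one,
        mul_one] at h4
      exact A.mem_nonunits_iff.mpr h4
  -- `σ` lies in the decomposition group
  have hmem : σ ∈ A.decompositionSubgroup K := by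
    rw [MulAction.mem_stabilizer_iff]
    ext x
    rw [ValuationSubring.mem_pointwise_smul_iff_inv_smul_mem]
    constructor
    · intro h
      have := (key2 _ h).1
      simpa [AlgEquiv.smul_def] using this
    · intro h
      have := (key2 _ h).2.1
      simpa [AlgEquiv.smul_def] using this
  refine ⟨hmem, fun x => ?_⟩
  obtain ⟨x, rfl⟩ := IsLocalRing.residue_surjective x
  rw [← IsLocalRing.ResidueField.residue_smul, ← map_pow, ← sub_eq_zero, ← map_sub,
    IsLocalRing.residue_eq_zero_iff, ← ValuationSubring.coe_mem_nonunits_iff]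
  exact (key2 x x.2).2.2

end General

/-- Part P3: the glue lemma in the form used for `exists_isFrobeniusAt`. -/
theorem frob_glue (ℓ : ℕ) (_hℓ : ℓ.Prime) (A : ValuationSubring (AlgebraicClosure ℚ))
    (_hA : A.LiesOverPrime ℓ) (σ : AlgebraicClosure ℚ ≃ₐ[ℚ] AlgebraicClosure ℚ)
    (hσ : ∀ b : AlgebraicClosure ℚ,
      (∀ g : AlgebraicClosure ℚ ≃ₐ[ℚ] AlgebraicClosure ℚ, g b ∈ A) → σ b - b ^ ℓ ∈ A.nonunits)
    (hX : ∀ x ∈ A, ∃ s b : AlgebraicClosure ℚ,
      (∀ g : AlgebraicClosure ℚ ≃ₐ[ℚ] AlgebraicClosure ℚ, g s ∈ A) ∧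
      (∀ g : AlgebraicClosure ℚ ≃ₐ[ℚ] AlgebraicClosure ℚ, g b ∈ A) ∧
      s ∉ A.nonunits ∧ x * s = b) :
    A.IsFrobeniusAt σ ℓ :=
  frob_glue_general ℓ A σ hσ hX

end Fermat.Agent.Common
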