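import Mathlib

set_option autoImplicit false

namespace Fermat.Agent.Common

open Polynomial

/-- An integer polynomial annihilating `x`, with a coefficient prime to `ℓ`. -/
theorem lemmaX_exists_poly (ℓ : ℕ) (hℓ : ℓ.Prime) (x : AlgebraicClosure ℚ) :
    ∃ p : ℤ[X], p ≠ 0 ∧ aeval x p = 0 ∧ ∃ i, ¬ (ℓ : ℤ) ∣ p.coeff i := by
  have : Algebra.IsAlgebraic ℚ (AlgebraicClosure ℚ) := AlgebraicClosure.isAlgebraic ℚ
  have hx : IsAlgebraic ℤ x :=
    (IsFractionRing.isAlgebraic_iff ℤ ℚ (AlgebraicClosure ℚ)).mpr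
      (Algebra.IsAlgebraic.isAlgebraic x)
  obtain ⟨p, hp0, hp⟩ := hx
  refine ⟨p.primPart, Polynomial.primPart_ne_zero p, ?_, ?_⟩
  · have h := p.eq_C_content_mul_primPart
    rw [h, map_mul, aeval_C] at hp
    rcases mul_eq_zero.mp hp with h0 | h0
    · exfalso
      have hc : p.content ≠ 0 := by
        rwa [Ne, Polynomial.content_eq_zero_iff]
      apply hc
      have h1 : ((p.content : ℤ) : AlgebraicClosure ℚ) = 0 := by
        simpa using h0
      exact_mod_cast h1
    · exact h0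
  · by_contra hcon
    push Not at hcon
    have hdvd : C (ℓ : ℤ) ∣ p.primPart := (Polynomial.C_dvd_iff_dvd_coeff _ _).mpr hcon
    have hu := p.isPrimitive_primPart _ hdvd
    have := Int.isUnit_iff.mp hu
    have h2 := hℓ.two_le
    omega

/-- Explicit-sum version: a finite integer sequence `a 0, …, a n` with `Σ a i x ^ i = 0`,
an index `k ≤ n` with `ℓ ∤ a k` and `ℓ ∣ a i` for `k < i ≤ n`. -/
theorem lemmaX_exists_coeffs (ℓ : ℕ) (hℓ : ℓ.Prime) (x : AlgebraicClosure ℚ) :
    ∃ (a : ℕ → ℤ) (k m : ℕ),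
      (∑ i ∈ Finset.range (k + (m + 1)), (a i : AlgebraicClosure ℚ) * x ^ i = 0) ∧
      ¬ (ℓ : ℤ) ∣ a k ∧ ∀ j, (ℓ : ℤ) ∣ a (k + (j + 1)) := by
  obtain ⟨p, hp0, hp, i, hi⟩ := lemmaX_exists_poly ℓ hℓ x
  -- the largest index with coefficient prime to ℓ
  have hi0 : p.coeff i ≠ 0 := fun h => hi (h ▸ dvd_zero _)
  have hin : i ≤ p.natDegree := Polynomial.le_natDegree_of_ne_zero hi0
  let S : Finset ℕ := (Finset.range (p.natDegree + 1)).filter (fun i => ¬ (ℓ : ℤ) ∣ p.coeff i)
  have hS : S.Nonempty := ⟨i, by simp [S, hi]; omega⟩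
  let k := S.max' hS
  have hkS : k ∈ S := S.max'_mem hS
  have hk1 : k < p.natDegree + 1 := by
    have := (Finset.mem_filter.mp hkS).1
    exact Finset.mem_range.mp this
  have hk2 : ¬ (ℓ : ℤ) ∣ p.coeff k := (Finset.mem_filter.mp hkS).2
  have hk3 : ∀ j, (ℓ : ℤ) ∣ p.coeff (k + (j + 1)) := by
    intro j
    by_contra hcon
    have hne : p.coeff (k + (j + 1)) ≠ 0 := fun h => hcon (h ▸ dvd_zero _)
    have hle : k + (j + 1) ≤ p.natDegree := Polynomial.le_natDegree_of_ne_zero hne
    have hmem : k + (j + 1) ∈ S := by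
      simp only [S, Finset.mem_filter, Finset.mem_range]
      exact ⟨by omega, hcon⟩
    have := S.le_max' _ hmem
    change k + (j + 1) ≤ k at this
    omega
  refine ⟨p.coeff, k, p.natDegree - k, ?_, hk2, hk3⟩
  have hsum : k + (p.natDegree - k + 1) = p.natDegree + 1 := by omega
  rw [hsum]
  rw [Polynomial.aeval_eq_sum_range] at hp
  rw [← hp]
  refine Finset.sum_congr rfl fun i _ => ?_
  rw [zsmul_eq_mul]


/-- `A.nonunits` absorbs multiplication by elements of `A`. -/
theorem lemmaX_nonunits_mul {K : Type*} [Field K] (A : ValuationSubring K) {u y : K}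
    (hu : u ∈ A.nonunits) (hy : y ∈ A) : u * y ∈ A.nonunits := by
  rw [ValuationSubring.mem_nonunits_iff] at hu ⊢
  rw [map_mul]
  have hy' : A.valuation y ≤ 1 := (A.valuation_le_one_iff y).mpr hy
  calc A.valuation u * A.valuation y ≤ A.valuation u * 1 := by gcongr
    _ = A.valuation u := mul_one _
    _ < 1 := hu

/-- The core computation of Lemma X: for a root `t` of `Σ a i X ^ i` (split at index `k`),
the "upper Horner part" `Y t = Σ_j a (k + j) t ^ j` and `t * Y t` both lie in `A`. -/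
theorem lemmaX_root_mem {K : Type*} [Field K] (A : ValuationSubring K)
    (a : ℕ → ℤ) (k m : ℕ) (t : K)
    (ht : ∑ i ∈ Finset.range (k + (m + 1)), (a i : K) * t ^ i = 0) :
    (∑ j ∈ Finset.range (m + 1), (a (k + j) : K) * t ^ j) ∈ A ∧
      t * (∑ j ∈ Finset.range (m + 1), (a (k + j) : K) * t ^ j) ∈ A := by
  set Y : K := ∑ j ∈ Finset.range (m + 1), (a (k + j) : K) * t ^ j with hY
  have hint : ∀ c : ℤ, (c : K) ∈ A := fun c => intCast_mem A c
  by_cases htA : t ∈ A
  · have hYA : Y ∈ A :=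
      sum_mem fun j _ => mul_mem (hint _) (pow_mem htA j)
    exact ⟨hYA, mul_mem htA hYA⟩
  · have hz : t⁻¹ ∈ A := (A.mem_or_inv_mem t).resolve_left htA
    have ht0 : t ≠ 0 := fun h => htA (h ▸ zero_mem A)
    -- split the sum
    have hsplit : (∑ i ∈ Finset.range k, (a i : K) * t ^ i) + t ^ k * Y = 0 := by
      rw [← ht, Finset.sum_range_add, hY, Finset.mul_sum]
      congr 1
      refine Finset.sum_congr rfl fun j _ => ?_
      rw [pow_add]; ring
    have htY : t * Y = -∑ i ∈ Finset.range k, (a i : K) * t⁻¹ ^ (k - 1 - i) := by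
      have hk0 : t ^ k ≠ 0 := pow_ne_zero _ ht0
      apply mul_right_cancel₀ hk0
      have h1 : t * Y * t ^ k = -(t * ∑ i ∈ Finset.range k, (a i : K) * t ^ i) := by
        have : t ^ k * Y = -∑ i ∈ Finset.range k, (a i : K) * t ^ i :=
          eq_neg_of_add_eq_zero_right hsplit
        calc t * Y * t ^ k = t * (t ^ k * Y) := by ring
          _ = _ := by rw [this]; ring
      rw [h1, neg_mul, Finset.mul_sum, Finset.sum_mul]
      congr 1
      refine Finset.sum_congr rfl fun i hi => ?_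
      have hik : i < k := Finset.mem_range.mp hi
      have hpow : t ^ k = t ^ (k - 1 - i) * t ^ (i + 1) := by
        rw [← pow_add]; congr 1; omega
      rw [hpow, inv_pow]
      field_simp
      ring
    have htYA : t * Y ∈ A := by
      rw [htY]
      exact neg_mem (sum_mem fun i _ => mul_mem (hint _) (pow_mem hz _))
    refine ⟨?_, htYA⟩
    have : Y = t⁻¹ * (t * Y) := by field_simp
    rw [this]
    exact mul_mem hz htYA

/-- **Lemma X** for the existence of Frobenius elements: every element `x` of a valuation subring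
`A` of `ℚ̄` over `ℓ` is a quotient `b / s` of two elements all of whose Galois conjugates lie in
`A`, with `s` a unit of `A`. -/
theorem lemmaX_frob (ℓ : ℕ) (hℓ : ℓ.Prime) (A : ValuationSubring (AlgebraicClosure ℚ))
    (hA : ((ℓ : ℕ) : AlgebraicClosure ℚ) ∈ A.nonunits) (x : AlgebraicClosure ℚ) (hx : x ∈ A) :
    ∃ s b : AlgebraicClosure ℚ,
      (∀ g : AlgebraicClosure ℚ ≃ₐ[ℚ] AlgebraicClosure ℚ, g s ∈ A) ∧
      (∀ g : AlgebraicClosure ℚ ≃ₐ[ℚ] AlgebraicClosure ℚ, g b ∈ A) ∧
      s ∉ A.nonunits ∧ x * s = b := by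
  obtain ⟨a, k, m, hroot, hk, hdiv⟩ := lemmaX_exists_coeffs ℓ hℓ x
  have hint : ∀ c : ℤ, (c : AlgebraicClosure ℚ) ∈ A := fun c => intCast_mem A c
  -- conjugates of `x` are roots of the same integer polynomial
  have hrootg : ∀ g : AlgebraicClosure ℚ ≃ₐ[ℚ] AlgebraicClosure ℚ,
      ∑ i ∈ Finset.range (k + (m + 1)), (a i : AlgebraicClosure ℚ) * (g x) ^ i = 0 := by
    intro g
    have := congrArg g hroot
    simpa [map_sum, map_mul, map_pow, map_intCast] using this
  have hY : ∀ g : AlgebraicClosure ℚ ≃ₐ[ℚ] AlgebraicClosure ℚ,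
      g (∑ j ∈ Finset.range (m + 1), (a (k + j) : AlgebraicClosure ℚ) * x ^ j) =
        ∑ j ∈ Finset.range (m + 1), (a (k + j) : AlgebraicClosure ℚ) * (g x) ^ j := by
    intro g
    simp [map_sum, map_mul, map_pow, map_intCast]
  refine ⟨∑ j ∈ Finset.range (m + 1), (a (k + j) : AlgebraicClosure ℚ) * x ^ j, _,
    fun g => ?_, fun g => ?_, ?_, rfl⟩
  · rw [hY g]
    exact (lemmaX_root_mem A a k m (g x) (hrootg g)).1
  · rw [map_mul, hY g]
    exact (lemmaX_root_mem A a k m (g x) (hrootg g)).2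
  · -- `s ≡ a k` modulo the maximal ideal, and `a k` is a unit
    intro hs
    rw [Finset.sum_range_succ'] at hs
    simp only [add_zero, pow_zero, mul_one] at hs
    have hrest : (∑ j ∈ Finset.range m, (a (k + (j + 1)) : AlgebraicClosure ℚ) * x ^ (j + 1))
        ∈ A.nonunits := by
      refine sum_mem fun j _ => ?_
      obtain ⟨c, hc⟩ := hdiv j
      rw [hc]
      push_cast
      rw [mul_assoc]
      exact lemmaX_nonunits_mul A hA (mul_mem (hint c) (pow_mem hx _))
    have hak : (a k : AlgebraicClosure ℚ) ∈ A.nonunits := by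
      have := sub_mem hs hrest
      simpa using this
    have hcop : IsCoprime (ℓ : ℤ) (a k) :=
      (Prime.coprime_iff_not_dvd (Nat.prime_iff_prime_int.mp hℓ)).mpr hk
    obtain ⟨u, w, huw⟩ := hcop
    have h1 : (1 : AlgebraicClosure ℚ) ∈ A.nonunits := by
      have h2 : ((u * (ℓ : ℤ) + w * a k : ℤ) : AlgebraicClosure ℚ) ∈ A.nonunits := by
        push_cast
        refine add_mem ?_ ?_
        · rw [mul_comm]; exact lemmaX_nonunits_mul A hA (hint u)
        · rw [mul_comm]; exact lemmaX_nonunits_mul A hak (hint w)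
      rw [huw] at h2
      simpa using h2
    rw [ValuationSubring.mem_nonunits_iff, map_one] at h1
    exact lt_irrefl _ h1

end Fermat.Agent.Common
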