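import Mathlib
import Fermat.Prelude.Def_EllipticCurve_FrobeniusTrace

/-!
# Existence of Frobenius elements, part P1

* `Fermat.Agent.Common.exists_liesOverPrime`: a valuation subring of `ℚ̄` over `ℓ` exists.
* `Fermat.Agent.Common.frob_profinite`: for a valuation subring `A` of `ℚ̄` over `ℓ` there is
  `σ ∈ Gal(ℚ̄/ℚ)` with `σ b ≡ b ^ ℓ mod 𝔪_A` for every `b` in the Galois-stable ring `⋂ g, g(A)`.
-/

set_option autoImplicit false
set_option linter.style.haveILetI false

namespace Fermat.Agent.Common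

open scoped Pointwise

theorem isAlgClosure_rat_qbar : IsAlgClosure ℚ (AlgebraicClosure ℚ) := by
  have h : (DivisionRing.toRatAlgebra : Algebra ℚ (AlgebraicClosure ℚ)) =
      AlgebraicClosure.instAlgebra ℚ := Subsingleton.elim _ _
  have : @IsAlgClosure ℚ (AlgebraicClosure ℚ) _ _ (AlgebraicClosure.instAlgebra ℚ) _ :=
    inferInstance
  convert this

theorem intCast_mem_valuationSubring (A : ValuationSubring (AlgebraicClosure ℚ)) (z : ℤ) :
    (z : AlgebraicClosure ℚ) ∈ A := intCast_mem A z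

theorem one_not_mem_nonunits (A : ValuationSubring (AlgebraicClosure ℚ)) :
    (1 : AlgebraicClosure ℚ) ∉ A.nonunits := by
  intro h
  rw [ValuationSubring.mem_nonunits_iff] at h
  simp at h

/-- An integer prime to `ℓ` is a unit of a valuation ring over `ℓ`. -/
theorem intCast_not_mem_nonunits {ℓ : ℕ} (hℓ : ℓ.Prime)
    (A : ValuationSubring (AlgebraicClosure ℚ)) (hA : ((ℓ : ℕ) : AlgebraicClosure ℚ) ∈ A.nonunits)
    (z : ℤ) (hz : ¬ (ℓ : ℤ) ∣ z) : (z : AlgebraicClosure ℚ) ∉ A.nonunits := by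
  intro h
  have hcop : IsCoprime (ℓ : ℤ) z := by
    have hp : Prime (ℓ : ℤ) := Nat.prime_iff_prime_int.mp hℓ
    exact (Prime.coprime_iff_not_dvd hp).mpr hz
  obtain ⟨u, v, huv⟩ := hcop
  have h1 : ((u : ℤ) : AlgebraicClosure ℚ) * (ℓ : AlgebraicClosure ℚ) +
      (v : AlgebraicClosure ℚ) * (z : AlgebraicClosure ℚ) = 1 := by
    have := congrArg (fun t : ℤ => (t : AlgebraicClosure ℚ)) huv
    simpa using this
  have hmem : ((u : ℤ) : AlgebraicClosure ℚ) * (ℓ : AlgebraicClosure ℚ) +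
      (v : AlgebraicClosure ℚ) * (z : AlgebraicClosure ℚ) ∈ A.nonunits := by
    rw [ValuationSubring.mem_nonunits_iff] at hA h ⊢
    have hu := (ValuationSubring.valuation_le_one_iff A _).mpr (intCast_mem A u)
    have hv := (ValuationSubring.valuation_le_one_iff A _).mpr (intCast_mem A v)
    refine lt_of_le_of_lt (Valuation.map_add _ _ _) (max_lt ?_ ?_)
    · rw [map_mul]
      exact mul_lt_one_of_nonneg_of_lt_one_right hu zero_le hA
    · rw [map_mul]
      exact mul_lt_one_of_nonneg_of_lt_one_right hv zero_le h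
  rw [h1] at hmem
  exact one_not_mem_nonunits A hmem

theorem exists_liesOverPrime (ℓ : ℕ) (hℓ : ℓ.Prime) :
    ∃ A : ValuationSubring (AlgebraicClosure ℚ), A.LiesOverPrime ℓ := by
  let R : Subring (AlgebraicClosure ℚ) := (Int.castRingHom (AlgebraicClosure ℚ)).range
  let x : R := ⟨(ℓ : AlgebraicClosure ℚ), ⟨(ℓ : ℤ), by simp⟩⟩
  have hI : Ideal.span {x} ≠ ⊤ := by
    intro htop
    rw [Ideal.span_singleton_eq_top] at htop
    obtain ⟨y, hy⟩ := htop.exists_right_inv
    obtain ⟨⟨y', ⟨n, hn⟩⟩, rfl⟩ : ∃ y'' : R, y'' = y := ⟨y, rfl⟩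
    have h1 : ((ℓ : ℤ) : AlgebraicClosure ℚ) * (n : AlgebraicClosure ℚ) = 1 := by
      have := congrArg Subtype.val hy
      simp only [Subring.coe_mul, Subring.coe_one, x] at this
      rw [← this, ← hn]
      simp
    have h2 : (ℓ : ℤ) * n = 1 := by
      have : (((ℓ : ℤ) * n : ℤ) : AlgebraicClosure ℚ) = ((1 : ℤ) : AlgebraicClosure ℚ) := by
        push_cast; exact h1
      exact Int.cast_injective this
    have h3 : (ℓ : ℤ) ∣ 1 := ⟨n, h2.symm⟩
    have h4 : (ℓ : ℤ) ≤ 1 := Int.le_of_dvd one_pos h3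
    have := hℓ.two_le
    omega
  obtain ⟨B, -, hB⟩ := Ideal.image_subset_nonunits_valuationSubring (Ideal.span {x}) hI
  refine ⟨B, ?_⟩
  show (ℓ : AlgebraicClosure ℚ) ∈ B.nonunits
  exact hB ⟨x, Ideal.subset_span rfl, rfl⟩


/-- The Galois-stable subring `⋂ g, g⁻¹(A)` of a valuation subring `A` of `ℚ̄`. -/
def galStableSubring (A : ValuationSubring (AlgebraicClosure ℚ)) :
    Subring (AlgebraicClosure ℚ) where
  carrier := {b | ∀ g : AlgebraicClosure ℚ ≃ₐ[ℚ] AlgebraicClosure ℚ, g b ∈ A}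
  mul_mem' := fun ha hb g => by rw [map_mul]; exact A.mul_mem _ _ (ha g) (hb g)
  one_mem' := fun g => by rw [map_one]; exact A.one_mem
  add_mem' := fun ha hb g => by rw [map_add]; exact A.add_mem _ _ (ha g) (hb g)
  zero_mem' := fun g => by rw [map_zero]; exact A.zero_mem
  neg_mem' := fun ha g => by rw [map_neg]; exact A.neg_mem _ (ha g)

theorem mem_galStableSubring {A : ValuationSubring (AlgebraicClosure ℚ)}
    {b : AlgebraicClosure ℚ} :
    b ∈ galStableSubring A ↔ ∀ g : AlgebraicClosure ℚ ≃ₐ[ℚ] AlgebraicClosure ℚ, g b ∈ A :=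
  Iff.rfl

theorem galStableSubring_le (A : ValuationSubring (AlgebraicClosure ℚ)) :
    galStableSubring A ≤ A.toSubring := fun b hb => by
  have := hb 1
  simpa using this

instance galStableSubring_isInvariant (A : ValuationSubring (AlgebraicClosure ℚ)) :
    IsInvariantSubring (AlgebraicClosure ℚ ≃ₐ[ℚ] AlgebraicClosure ℚ) (galStableSubring A) where
  smul_mem := fun m x hx g => by
    have := hx (g * m)
    simpa [AlgEquiv.smul_def, AlgEquiv.mul_apply] using this


/-- `ℓ`-th roots of elements of the Galois-stable subring stay in it. -/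
theorem exists_pow_eq_of_mem_galStableSubring {ℓ : ℕ} (hℓ : ℓ.Prime)
    (A : ValuationSubring (AlgebraicClosure ℚ)) (b : AlgebraicClosure ℚ)
    (hb : b ∈ galStableSubring A) : ∃ c ∈ galStableSubring A, c ^ ℓ = b := by
  obtain ⟨c, hc⟩ := IsAlgClosed.exists_pow_nat_eq b hℓ.pos
  refine ⟨c, fun g => ?_, hc⟩
  have h1 : (g c) ^ ℓ ∈ A := by
    rw [← map_pow, hc]; exact hb g
  rw [← ValuationSubring.valuation_le_one_iff] at h1 ⊢
  rw [map_pow] at h1
  exact (pow_le_one_iff_of_nonneg zero_le hℓ.ne_zero).mp h1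

/-- An element of `ℚ̄` fixed by the whole Galois group is rational. -/
theorem exists_rat_of_fixed (b : AlgebraicClosure ℚ)
    (hb : ∀ g : AlgebraicClosure ℚ ≃ₐ[ℚ] AlgebraicClosure ℚ, g b = b) :
    ∃ q : ℚ, algebraMap ℚ (AlgebraicClosure ℚ) q = b := by
  have := isAlgClosure_rat_qbar
  have h1 : b ∈ IntermediateField.fixedField
      (⊤ : Subgroup (AlgebraicClosure ℚ ≃ₐ[ℚ] AlgebraicClosure ℚ)) := by
    rw [IntermediateField.mem_fixedField_iff]
    intro g _
    exact hb g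
  rw [InfiniteGalois.fixedField_bot, IntermediateField.mem_bot] at h1
  exact h1

/-- Fermat's little theorem in a valuation ring of `ℚ̄` over `ℓ`, for rational elements. -/
theorem rat_pow_sub_self_mem_nonunits {ℓ : ℕ} (hℓ : ℓ.Prime)
    (A : ValuationSubring (AlgebraicClosure ℚ)) (hA : ((ℓ : ℕ) : AlgebraicClosure ℚ) ∈ A.nonunits)
    (q : ℚ) (hq : algebraMap ℚ (AlgebraicClosure ℚ) q ∈ A) :
    (algebraMap ℚ (AlgebraicClosure ℚ) q) ^ ℓ - algebraMap ℚ (AlgebraicClosure ℚ) q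
      ∈ A.nonunits := by
  have : Fact ℓ.Prime := ⟨hℓ⟩
  set m : ℤ := q.num with hm
  set n : ℕ := q.den with hn
  have hn0 : (n : AlgebraicClosure ℚ) ≠ 0 := by
    have : n ≠ 0 := q.den_nz
    exact_mod_cast this
  have hqdef : algebraMap ℚ (AlgebraicClosure ℚ) q = (m : AlgebraicClosure ℚ) / (n : AlgebraicClosure ℚ) := by
    rw [eq_ratCast, Rat.cast_def]
  have hmq : (m : AlgebraicClosure ℚ) = algebraMap ℚ (AlgebraicClosure ℚ) q * (n : AlgebraicClosure ℚ) := by
    rw [hqdef]; field_simp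
  -- `ℓ ∤ n`
  have hℓn : ¬ (ℓ : ℤ) ∣ (n : ℤ) := by
    intro hdvd
    have hℓm : ¬ (ℓ : ℤ) ∣ m := by
      intro hdvd'
      have h1 : ℓ ∣ m.natAbs := Int.natCast_dvd.mp hdvd'
      have h2 : ℓ ∣ n := Int.natCast_dvd_natCast.mp hdvd
      have h3 : Nat.Coprime m.natAbs n := q.reduced
      have := Nat.dvd_gcd h1 h2
      rw [h3] at this
      exact hℓ.one_lt.ne' (Nat.dvd_one.mp this)
    have hnmem : ((n : ℤ) : AlgebraicClosure ℚ) ∈ A.nonunits := by
      obtain ⟨w, hw⟩ := hdvd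
      rw [hw]
      push_cast
      rw [ValuationSubring.mem_nonunits_iff] at hA ⊢
      rw [map_mul]
      have hwle := (ValuationSubring.valuation_le_one_iff A _).mpr (intCast_mem A w)
      rw [mul_comm]
      exact mul_lt_one_of_nonneg_of_lt_one_right hwle zero_le hA
    have hmmem : (m : AlgebraicClosure ℚ) ∈ A.nonunits := by
      rw [hmq]
      rw [ValuationSubring.mem_nonunits_iff] at hnmem ⊢
      rw [map_mul]
      have hqle := (ValuationSubring.valuation_le_one_iff A _).mpr hq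
      have hnmem' : A.valuation (n : AlgebraicClosure ℚ) < 1 := by simpa using hnmem
      exact mul_lt_one_of_nonneg_of_lt_one_right hqle zero_le hnmem'
    exact intCast_not_mem_nonunits hℓ A hA m hℓm hmmem
  have hvn : A.valuation (n : AlgebraicClosure ℚ) = 1 := by
    have h1 : A.valuation ((n : ℤ) : AlgebraicClosure ℚ) ≤ 1 :=
      (ValuationSubring.valuation_le_one_iff A _).mpr (intCast_mem A n)
    have h2 : ¬ A.valuation ((n : ℤ) : AlgebraicClosure ℚ) < 1 := by
      rw [← ValuationSubring.mem_nonunits_iff]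
      exact intCast_not_mem_nonunits hℓ A hA n hℓn
    have := le_antisymm h1 (not_lt.mp h2)
    simpa using this
  -- the numerator is divisible by `ℓ`
  have hnum : (ℓ : ℤ) ∣ m ^ ℓ * n - m * (n : ℤ) ^ ℓ := by
    rw [← ZMod.intCast_zmod_eq_zero_iff_dvd]
    push_cast
    rw [ZMod.pow_card, ZMod.pow_card]
    ring
  have key : algebraMap ℚ (AlgebraicClosure ℚ) q ^ ℓ - algebraMap ℚ (AlgebraicClosure ℚ) q =
      ((m ^ ℓ * n - m * (n : ℤ) ^ ℓ : ℤ) : AlgebraicClosure ℚ) *
        ((n : AlgebraicClosure ℚ)⁻¹) ^ (ℓ + 1) := by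
    rw [hqdef]
    push_cast
    have e1 : (n : AlgebraicClosure ℚ) * (n : AlgebraicClosure ℚ)⁻¹ = 1 := mul_inv_cancel₀ hn0
    have e2 : (n : AlgebraicClosure ℚ) ^ ℓ * ((n : AlgebraicClosure ℚ)⁻¹) ^ ℓ = 1 := by
      rw [← mul_pow, e1, one_pow]
    calc ((m : AlgebraicClosure ℚ) / (n : AlgebraicClosure ℚ)) ^ ℓ -
          (m : AlgebraicClosure ℚ) / (n : AlgebraicClosure ℚ)
        = (m : AlgebraicClosure ℚ) ^ ℓ * ((n : AlgebraicClosure ℚ)⁻¹) ^ ℓ *
            ((n : AlgebraicClosure ℚ) * (n : AlgebraicClosure ℚ)⁻¹) -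
          (m : AlgebraicClosure ℚ) * (n : AlgebraicClosure ℚ)⁻¹ *
            ((n : AlgebraicClosure ℚ) ^ ℓ * ((n : AlgebraicClosure ℚ)⁻¹) ^ ℓ) := by
          rw [e1, e2, div_eq_mul_inv, mul_pow]; ring
      _ = _ := by ring
  rw [key, ValuationSubring.mem_nonunits_iff, map_mul, map_pow, map_inv₀, hvn, inv_one, one_pow,
    mul_one]
  obtain ⟨w, hw⟩ := hnum
  rw [hw]
  push_cast
  rw [map_mul]
  have hwle := (ValuationSubring.valuation_le_one_iff A _).mpr (intCast_mem A w)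
  rw [ValuationSubring.mem_nonunits_iff] at hA
  rw [mul_comm]
  exact mul_lt_one_of_nonneg_of_lt_one_right hwle zero_le hA


theorem frob_profinite (ℓ : ℕ) (hℓ : ℓ.Prime) (A : ValuationSubring (AlgebraicClosure ℚ))
    (hA : A.LiesOverPrime ℓ) :
    ∃ σ : AlgebraicClosure ℚ ≃ₐ[ℚ] AlgebraicClosure ℚ, ∀ b : AlgebraicClosure ℚ,
      (∀ g : AlgebraicClosure ℚ ≃ₐ[ℚ] AlgebraicClosure ℚ, g b ∈ A) →
        σ b - b ^ ℓ ∈ A.nonunits := by
  classical
  have hA' : ((ℓ : ℕ) : AlgebraicClosure ℚ) ∈ A.nonunits := hA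
  haveI := isAlgClosure_rat_qbar
  haveI : Fact ℓ.Prime := ⟨hℓ⟩
  letI : TopologicalSpace (galStableSubring A) := ⊥
  haveI : DiscreteTopology (galStableSubring A) := ⟨rfl⟩
  haveI : ContinuousSMul (AlgebraicClosure ℚ ≃ₐ[ℚ] AlgebraicClosure ℚ) (galStableSubring A) := by
    rw [continuousSMul_iff_stabilizer_isOpen]
    intro b
    have h := stabilizer_isOpen_of_isIntegral (K := ℚ) (b : AlgebraicClosure ℚ)
    convert h using 1
    ext g
    simp only [SetLike.mem_coe, MulAction.mem_stabilizer_iff, Subtype.ext_iff]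
    rfl
  -- the prime `Q`
  let incl : galStableSubring A →+* A := Subring.inclusion (galStableSubring_le A)
  let Q : Ideal (galStableSubring A) := (IsLocalRing.maximalIdeal A).comap incl
  have hQmem : ∀ b : galStableSubring A, b ∈ Q ↔ (b : AlgebraicClosure ℚ) ∈ A.nonunits := by
    intro b
    rw [Ideal.mem_comap, ← ValuationSubring.coe_mem_nonunits_iff]
    rfl
  haveI : Q.IsPrime := Ideal.comap_isPrime _ _
  let P : Ideal (FixedPoints.subring (galStableSubring A)
      (AlgebraicClosure ℚ ≃ₐ[ℚ] AlgebraicClosure ℚ)) :=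
    Q.under _
  haveI : Q.LiesOver P := ⟨rfl⟩
  haveI : Algebra.IsInvariant (FixedPoints.subring (galStableSubring A)
      (AlgebraicClosure ℚ ≃ₐ[ℚ] AlgebraicClosure ℚ)) (galStableSubring A)
      (AlgebraicClosure ℚ ≃ₐ[ℚ] AlgebraicClosure ℚ) := ⟨fun b hb => ⟨⟨b, hb⟩, rfl⟩⟩
  -- characteristic `ℓ`
  have hℓQ : ((ℓ : ℕ) : galStableSubring A) ∈ Q := by
    rw [hQmem]
    simpa using hA'
  haveI : CharP (galStableSubring A ⧸ Q) ℓ := by
    haveI : Nontrivial (galStableSubring A ⧸ Q) :=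
      Ideal.Quotient.nontrivial_iff.mpr (Ideal.IsPrime.ne_top inferInstance)
    rw [CharP.charP_iff_prime_eq_zero hℓ]
    have : ((ℓ : ℕ) : galStableSubring A ⧸ Q) = Ideal.Quotient.mk Q ((ℓ : ℕ) : galStableSubring A) := by
      simp
    rw [this, Ideal.Quotient.eq_zero_iff_mem]
    exact hℓQ
  -- Frobenius is bijective on `B ⧸ Q`
  have hinj : Function.Injective (frobenius (galStableSubring A ⧸ Q) ℓ) :=
    frobenius_inj (galStableSubring A ⧸ Q) ℓ
  have hsurj : Function.Surjective (frobenius (galStableSubring A ⧸ Q) ℓ) := by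
    intro y
    obtain ⟨b, rfl⟩ := Ideal.Quotient.mk_surjective y
    obtain ⟨c, hc, hcb⟩ := exists_pow_eq_of_mem_galStableSubring hℓ A b b.2
    refine ⟨Ideal.Quotient.mk Q ⟨c, hc⟩, ?_⟩
    rw [frobenius_def, ← map_pow]
    congr 1
    exact Subtype.ext hcb
  -- Frobenius is linear over the fixed ring
  have hcomm : ∀ r : (FixedPoints.subring (galStableSubring A)
      (AlgebraicClosure ℚ ≃ₐ[ℚ] AlgebraicClosure ℚ)) ⧸ P,
      frobenius (galStableSubring A ⧸ Q) ℓ (algebraMap _ (galStableSubring A ⧸ Q) r) =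
        algebraMap _ (galStableSubring A ⧸ Q) r := by
    intro r
    obtain ⟨a, rfl⟩ := Ideal.Quotient.mk_surjective r
    have hfix : ∀ g : AlgebraicClosure ℚ ≃ₐ[ℚ] AlgebraicClosure ℚ,
        g ((a : galStableSubring A) : AlgebraicClosure ℚ) =
          ((a : galStableSubring A) : AlgebraicClosure ℚ) := by
      intro g
      have := a.2 g
      exact congrArg Subtype.val this
    obtain ⟨q, hq⟩ := exists_rat_of_fixed _ hfix
    have hqA : algebraMap ℚ (AlgebraicClosure ℚ) q ∈ A := by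
      rw [hq]; exact galStableSubring_le A (a : galStableSubring A).2
    have hmem := rat_pow_sub_self_mem_nonunits hℓ A hA' q hqA
    rw [hq] at hmem
    have hmemQ : (a : galStableSubring A) ^ ℓ - (a : galStableSubring A) ∈ Q := by
      rw [hQmem]
      simpa using hmem
    rw [frobenius_def]
    have e1 : algebraMap ((FixedPoints.subring (galStableSubring A)
        (AlgebraicClosure ℚ ≃ₐ[ℚ] AlgebraicClosure ℚ)) ⧸ P) (galStableSubring A ⧸ Q)
        (Ideal.Quotient.mk P a) = Ideal.Quotient.mk Q (a : galStableSubring A) := rfl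
    rw [e1, ← map_pow, Ideal.Quotient.eq]
    exact hmemQ
  let F₀ : (galStableSubring A ⧸ Q) →ₐ[(FixedPoints.subring (galStableSubring A)
      (AlgebraicClosure ℚ ≃ₐ[ℚ] AlgebraicClosure ℚ)) ⧸ P] (galStableSubring A ⧸ Q) :=
    { frobenius (galStableSubring A ⧸ Q) ℓ with commutes' := hcomm }
  let F : (galStableSubring A ⧸ Q) ≃ₐ[(FixedPoints.subring (galStableSubring A)
      (AlgebraicClosure ℚ ≃ₐ[ℚ] AlgebraicClosure ℚ)) ⧸ P] (galStableSubring A ⧸ Q) :=
    AlgEquiv.ofBijective F₀ ⟨hinj, hsurj⟩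
  obtain ⟨σ, hσ⟩ := Ideal.Quotient.stabilizerHom_surjective_of_profinite
    (G := AlgebraicClosure ℚ ≃ₐ[ℚ] AlgebraicClosure ℚ) P Q F
  refine ⟨σ.1, fun b hb => ?_⟩
  have h1 := congrArg (fun f => f (Ideal.Quotient.mk Q ⟨b, hb⟩)) hσ
  simp only [Ideal.Quotient.stabilizerHom_apply] at h1
  have h2 : F (Ideal.Quotient.mk Q ⟨b, hb⟩) =
      Ideal.Quotient.mk Q ((⟨b, hb⟩ : galStableSubring A) ^ ℓ) := by
    rw [map_pow]; rfl
  rw [h2, Ideal.Quotient.eq, hQmem] at h1
  have h3 : ((σ • (⟨b, hb⟩ : galStableSubring A) : galStableSubring A) : AlgebraicClosure ℚ) =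
      σ.1 b := rfl
  rw [← h3]
  simpa using h1

end Fermat.Agent.Common
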