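import Mathlib
import Fermat.Prelude.Def_EllipticCurve_FrobeniusTrace
import Fermat.Agent.Common.FrobProfinite
import Fermat.Agent.Common.FrobLemmaX
import Fermat.Agent.Common.FrobGlue

/-!
# Existence of Frobenius elements

For every prime `ℓ` there are a valuation subring `A` of `ℚ̄` lying over `ℓ` and an element
`σ` of the absolute Galois group of `ℚ` which is a Frobenius element at `A`.
-/

set_option autoImplicit false

namespace Fermat.Agent.Common

/-- Every valuation subring of `ℚ̄` over a prime `ℓ` has a Frobenius element. -/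
theorem exists_isFrobeniusAt_of_liesOverPrime (ℓ : ℕ) (hℓ : ℓ.Prime)
    (A : ValuationSubring (AlgebraicClosure ℚ)) (hA : A.LiesOverPrime ℓ) :
    ∃ σ : AlgebraicClosure ℚ ≃ₐ[ℚ] AlgebraicClosure ℚ, A.IsFrobeniusAt σ ℓ := by
  obtain ⟨σ, hσ⟩ := frob_profinite ℓ hℓ A hA
  exact ⟨σ, frob_glue ℓ hℓ A hA σ hσ (fun x hx => lemmaX_frob ℓ hℓ A hA x hx)⟩

/-- For every prime `ℓ` there is a Frobenius element at some valuation subring over `ℓ`. -/
theorem exists_isFrobeniusAt (ℓ : ℕ) (hℓ : ℓ.Prime) :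
    ∃ (A : ValuationSubring (AlgebraicClosure ℚ))
      (σ : AlgebraicClosure ℚ ≃ₐ[ℚ] AlgebraicClosure ℚ),
      A.LiesOverPrime ℓ ∧ A.IsFrobeniusAt σ ℓ := by
  obtain ⟨A, hA⟩ := exists_liesOverPrime ℓ hℓ
  obtain ⟨σ, hσ⟩ := exists_isFrobeniusAt_of_liesOverPrime ℓ hℓ A hA
  exact ⟨A, σ, hA, hσ⟩

end Fermat.Agent.Common
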