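import Mathlib
import Fermat.Agent.Common.FrobProfinite
import Fermat.Agent.Common.FrobLemmaX
import Fermat.Agent.Common.FrobGlue

/-!
# Lifting inertia from finite level to `Gal(ℚ̄/ℚ)`

* `Fermat.Agent.Common.exists_int_mul_isIntegral_of_forall_mem`: if all conjugates of `x` lie in a
  valuation ring `A` of `ℚ̄` over `q`, then `s * x` is an algebraic integer for some integer `s`
  prime to `q`.
* `Fermat.Agent.Common.exists_mem_inertiaSubgroupIn_of_congr`: if `σ ∈ Gal(ℚ̄/ℚ)` is congruent to the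
  identity modulo `𝔪_A` on the algebraic integers of a normal subfield `F` of `ℚ̄`, then there is
  `σ'` in the inertia group of `A` with `σ' = σ` on `F`.
-/

set_option autoImplicit false
set_option linter.style.haveILetI false

namespace Fermat.Agent.Common

open scoped Pointwise
open Polynomial

/-- An integer lying in the maximal ideal of a valuation ring over `q` is divisible by `q`. -/
theorem int_dvd_of_mem_nonunits {q : ℕ} (hq : q.Prime)
    (A : ValuationSubring (AlgebraicClosure ℚ)) (hA : ((q : ℕ) : AlgebraicClosure ℚ) ∈ A.nonunits)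
    (z : ℤ) (hz : (z : AlgebraicClosure ℚ) ∈ A.nonunits) : (q : ℤ) ∣ z := by
  by_contra h
  exact intCast_not_mem_nonunits hq A hA z h hz

/-- If all conjugates of `x` lie in a valuation ring `A` of `ℚ̄` over `q`, then `s * x` is an
algebraic integer for some integer `s` prime to `q`. -/
theorem exists_int_mul_isIntegral_of_forall_mem {q : ℕ} (hq : q.Prime)
    (A : ValuationSubring (AlgebraicClosure ℚ)) (hA : ((q : ℕ) : AlgebraicClosure ℚ) ∈ A.nonunits)
    (x : AlgebraicClosure ℚ)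
    (hx : ∀ g : AlgebraicClosure ℚ ≃ₐ[ℚ] AlgebraicClosure ℚ, g x ∈ A) :
    ∃ s : ℤ, ¬ (q : ℤ) ∣ s ∧ IsIntegral ℤ ((s : AlgebraicClosure ℚ) * x) := by
  classical
  haveI := isAlgClosure_rat_qbar
  have halg : IsAlgebraic ℚ x := (AlgebraicClosure.isAlgebraic ℚ).isAlgebraic x
  have hint : IsIntegral ℚ x := halg.isIntegral
  set f : ℚ[X] := minpoly ℚ x with hf
  have hf0 : f ≠ 0 := minpoly.ne_zero hint
  obtain ⟨b, hbM, hb⟩ := IsLocalization.integerNormalization_spec (nonZeroDivisors ℤ) f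
  set g : ℤ[X] := IsLocalization.integerNormalization (nonZeroDivisors ℤ) f with hg
  have hb0 : b ≠ 0 := nonZeroDivisors.ne_zero hbM
  have hg0 : g ≠ 0 := by
    intro h0
    rw [h0, Polynomial.map_zero] at hb
    have : b • f ≠ 0 := by
      rw [Ne, smul_eq_zero, not_or]
      exact ⟨hb0, hf0⟩
    exact this hb.symm
  -- roots of `g` in `ℚ̄` are roots of `f`, hence conjugates of `x`, hence in `A`
  have hroot : ∀ r : AlgebraicClosure ℚ, aeval r g = 0 → r ∈ A := by
    intro r hr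
    have h1 : aeval r (g.map (algebraMap ℤ ℚ)) = 0 := by
      rw [aeval_map_algebraMap]; exact hr
    rw [hb, zsmul_eq_mul, map_mul, map_intCast, mul_eq_zero] at h1
    have h2 : aeval r f = 0 := h1.resolve_left (by exact_mod_cast hb0)
    obtain ⟨σ, hσ⟩ := minpoly.exists_algEquiv_of_root' (K := ℚ) halg h2
    rw [← hσ]
    exact hx σ
  have hxg : aeval x g = 0 := by
    have h1 : aeval x (g.map (algebraMap ℤ ℚ)) = 0 := by
      rw [hb, zsmul_eq_mul, map_mul, hf, minpoly.aeval, mul_zero]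
    rwa [aeval_map_algebraMap] at h1
  -- the primitive part
  set p : ℤ[X] := g.primPart with hp
  have hgp : g = C g.content * p := g.eq_C_content_mul_primPart
  have hc0 : g.content ≠ 0 := by rwa [Ne, Polynomial.content_eq_zero_iff]
  have hc0' : ((g.content : ℤ) : AlgebraicClosure ℚ) ≠ 0 := by exact_mod_cast hc0
  have haeval : ∀ r : AlgebraicClosure ℚ, aeval r p = 0 ↔ aeval r g = 0 := by
    intro r
    rw [hgp, map_mul, aeval_C, mul_eq_zero]
    constructor
    · intro h; exact Or.inr h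
    · rintro (h | h)
      · exact absurd (by simpa using h) hc0'
      · exact h
  have hp0 : p ≠ 0 := Polynomial.primPart_ne_zero g
  have hprim : p.IsPrimitive := g.isPrimitive_primPart
  -- factorisation over `ℚ̄`
  set P : (AlgebraicClosure ℚ)[X] := p.map (algebraMap ℤ (AlgebraicClosure ℚ)) with hP
  have hinj : Function.Injective (algebraMap ℤ (AlgebraicClosure ℚ)) :=
    (algebraMap ℤ (AlgebraicClosure ℚ)).injective_int
  have hsplit : P.Splits := IsAlgClosed.splits P
  have hfac := hsplit.eq_prod_roots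
  have hlead : P.leadingCoeff = ((p.leadingCoeff : ℤ) : AlgebraicClosure ℚ) := by
    rw [hP, Polynomial.leadingCoeff_map_of_injective hinj]
    simp
  have hP0 : P ≠ 0 := (Polynomial.map_ne_zero_iff hinj).mpr hp0
  -- the monic factor has coefficients in `A`
  have hlift : (P.roots.map fun r => X - C r).prod ∈ Polynomial.lifts A.subtype := by
    refine Subsemiring.multiset_prod_mem _ _ ?_
    intro t ht
    obtain ⟨r, hr, rfl⟩ := Multiset.mem_map.mp ht
    have hrA : r ∈ A := by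
      apply hroot
      rw [← haeval]
      have := (Polynomial.mem_roots hP0).mp hr
      rw [Polynomial.IsRoot.def, hP, Polynomial.eval_map_algebraMap] at this
      exact this
    rw [Polynomial.lifts_iff_coeff_lifts]
    intro n
    rw [Polynomial.coeff_sub, Polynomial.coeff_X, Polynomial.coeff_C]
    refine ⟨(if 1 = n then 1 else 0) - (if n = 0 then ⟨r, hrA⟩ else 0), ?_⟩
    split_ifs <;> simp
  have hcoeffA : ∀ n, (P.roots.map fun r => X - C r).prod.coeff n ∈ A := by
    intro n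
    obtain ⟨y, hy⟩ := (Polynomial.lifts_iff_coeff_lifts _).mp hlift n
    rw [← hy]
    exact y.2
  refine ⟨p.leadingCoeff, ?_, ?_⟩
  · intro hdvd
    have hmem : ((p.leadingCoeff : ℤ) : AlgebraicClosure ℚ) ∈ A.nonunits := by
      obtain ⟨w, hw⟩ := hdvd
      rw [hw]
      push_cast
      exact lemmaX_nonunits_mul A hA (intCast_mem A w)
    have hall : ∀ n, (q : ℤ) ∣ p.coeff n := by
      intro n
      apply int_dvd_of_mem_nonunits hq A hA
      have h1 : ((p.coeff n : ℤ) : AlgebraicClosure ℚ) = P.coeff n := by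
        rw [hP, Polynomial.coeff_map]; simp
      rw [h1, hfac, Polynomial.coeff_C_mul, hlead]
      exact lemmaX_nonunits_mul A hmem (hcoeffA n)
    have hCdvd : C (q : ℤ) ∣ p := (Polynomial.C_dvd_iff_dvd_coeff _ _).mpr hall
    have hu := hprim _ hCdvd
    have := Int.isUnit_iff.mp hu
    have h2 := hq.two_le
    omega
  · have h1 : aeval x p = 0 := (haeval x).mpr hxg
    have h2 := isIntegral_leadingCoeff_smul (R := ℤ) p x h1
    rwa [Algebra.smul_def, eq_intCast] at h2

/-- A congruence `σ ≡ id mod 𝔪_A` on the algebraic integers of `F` extends to all elements of `F`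
all of whose conjugates lie in `A`. -/
theorem congr_on_galStable_of_congr_on_integers {q : ℕ} (hq : q.Prime)
    (A : ValuationSubring (AlgebraicClosure ℚ)) (hA : ((q : ℕ) : AlgebraicClosure ℚ) ∈ A.nonunits)
    (F : IntermediateField ℚ (AlgebraicClosure ℚ))
    (σ : AlgebraicClosure ℚ ≃ₐ[ℚ] AlgebraicClosure ℚ)
    (hσ : ∀ x ∈ F, IsIntegral ℤ x → σ x - x ∈ A.nonunits)
    (x : AlgebraicClosure ℚ) (hxF : x ∈ F)
    (hx : ∀ g : AlgebraicClosure ℚ ≃ₐ[ℚ] AlgebraicClosure ℚ, g x ∈ A) :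
    σ x - x ∈ A.nonunits := by
  obtain ⟨s, hs, hsx⟩ := exists_int_mul_isIntegral_of_forall_mem hq A hA x hx
  have hsF : (s : AlgebraicClosure ℚ) * x ∈ F := F.mul_mem (intCast_mem F s) hxF
  have h1 := hσ _ hsF hsx
  have h2 : σ ((s : AlgebraicClosure ℚ) * x) - (s : AlgebraicClosure ℚ) * x =
      (s : AlgebraicClosure ℚ) * (σ x - x) := by
    rw [map_mul, map_intCast]; ring
  rw [h2, ValuationSubring.mem_nonunits_iff, map_mul] at h1
  have hsu : A.valuation (s : AlgebraicClosure ℚ) = 1 :=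
    frobGlue_valuation_eq_one A (intCast_mem A s) (intCast_not_mem_nonunits hq A hA s hs)
  rw [hsu, one_mul] at h1
  rwa [ValuationSubring.mem_nonunits_iff]

/-- A normal subfield is stable under every automorphism. -/
theorem apply_mem_of_normal (F : IntermediateField ℚ (AlgebraicClosure ℚ)) [Normal ℚ F]
    (σ : AlgebraicClosure ℚ ≃ₐ[ℚ] AlgebraicClosure ℚ) {x : AlgebraicClosure ℚ} (hx : x ∈ F) :
    σ x ∈ F := by
  haveI := isAlgClosure_rat_qbar
  have h := IntermediateField.normal_iff_forall_map_le'.mp (inferInstance : Normal ℚ F) σ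
  exact h ⟨x, hx, rfl⟩

/-- The profinite step: if `σ ≡ id mod 𝔪_A` on the Galois-stable elements of the normal subfield
`F`, then some `σ'` agreeing with `σ` on `F` is `≡ id mod 𝔪_A` on all Galois-stable elements. -/
theorem exists_congr_one_on_galStable (F : IntermediateField ℚ (AlgebraicClosure ℚ)) [Normal ℚ F]
    (A : ValuationSubring (AlgebraicClosure ℚ))
    (σ : AlgebraicClosure ℚ ≃ₐ[ℚ] AlgebraicClosure ℚ)
    (hσ : ∀ x ∈ F, (∀ g : AlgebraicClosure ℚ ≃ₐ[ℚ] AlgebraicClosure ℚ, g x ∈ A) →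
      σ x - x ∈ A.nonunits) :
    ∃ σ' : AlgebraicClosure ℚ ≃ₐ[ℚ] AlgebraicClosure ℚ, (∀ x ∈ F, σ' x = σ x) ∧
      ∀ b : AlgebraicClosure ℚ,
        (∀ g : AlgebraicClosure ℚ ≃ₐ[ℚ] AlgebraicClosure ℚ, g b ∈ A) → σ' b - b ∈ A.nonunits := by
  classical
  haveI := isAlgClosure_rat_qbar
  let U : Subgroup (AlgebraicClosure ℚ ≃ₐ[ℚ] AlgebraicClosure ℚ) := F.fixingSubgroup
  have hclosed : IsClosed (U : Set (AlgebraicClosure ℚ ≃ₐ[ℚ] AlgebraicClosure ℚ)) :=
    InfiniteGalois.fixingSubgroup_isClosed F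
  haveI : CompactSpace U := isCompact_iff_compactSpace.mp hclosed.isCompact
  letI : TopologicalSpace (galStableSubring A) := ⊥
  haveI : DiscreteTopology (galStableSubring A) := ⟨rfl⟩
  haveI : ContinuousSMul (AlgebraicClosure ℚ ≃ₐ[ℚ] AlgebraicClosure ℚ) (galStableSubring A) := by
    rw [continuousSMul_iff_stabilizer_isOpen]
    intro b
    have h := stabilizer_isOpen_of_isIntegral (K := ℚ) (b : AlgebraicClosure ℚ)
    convert h using 1
    ext g
    simp only [SetLike.mem_coe, MulAction.mem_stabilizer_iff, Subtype.ext_iff]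
    rfl
  haveI : Algebra.IsInvariant (FixedPoints.subring (galStableSubring A) U) (galStableSubring A) U :=
    ⟨fun b hb => ⟨⟨b, hb⟩, rfl⟩⟩
  haveI : Algebra.IsInvariant (FixedPoints.subring (galStableSubring A)
      (AlgebraicClosure ℚ ≃ₐ[ℚ] AlgebraicClosure ℚ)) (galStableSubring A)
      (AlgebraicClosure ℚ ≃ₐ[ℚ] AlgebraicClosure ℚ) := ⟨fun b hb => ⟨⟨b, hb⟩, rfl⟩⟩
  -- basic facts on `U`
  have hUfix : ∀ u : U, ∀ x ∈ F, (u : AlgebraicClosure ℚ ≃ₐ[ℚ] AlgebraicClosure ℚ) x = x := by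
    intro u x hx
    exact (IntermediateField.mem_fixingSubgroup_iff F _).mp u.2 x hx
  have hfixedF : ∀ a : FixedPoints.subring (galStableSubring A) U,
      ((a : galStableSubring A) : AlgebraicClosure ℚ) ∈ F := by
    intro a
    have h1 : ((a : galStableSubring A) : AlgebraicClosure ℚ) ∈
        IntermediateField.fixedField F.fixingSubgroup := by
      rw [IntermediateField.mem_fixedField_iff]
      intro g hg
      have := a.2 ⟨g, hg⟩
      exact congrArg Subtype.val this
    rwa [InfiniteGalois.fixedField_fixingSubgroup] at h1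
  -- the prime `Q`
  let incl : galStableSubring A →+* A := Subring.inclusion (galStableSubring_le A)
  let Q : Ideal (galStableSubring A) := (IsLocalRing.maximalIdeal A).comap incl
  have hQmem : ∀ b : galStableSubring A, b ∈ Q ↔ (b : AlgebraicClosure ℚ) ∈ A.nonunits := by
    intro b
    rw [Ideal.mem_comap, ← ValuationSubring.coe_mem_nonunits_iff]
    rfl
  haveI : Q.IsPrime := Ideal.comap_isPrime _ _
  -- the congruence for `σ` and `σ⁻¹` on the fixed ring
  have hcongr : ∀ a : FixedPoints.subring (galStableSubring A) U,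
      σ • (a : galStableSubring A) - (a : galStableSubring A) ∈ Q := by
    intro a
    rw [hQmem]
    exact hσ _ (hfixedF a) (a : galStableSubring A).2
  have hcongr' : ∀ a : FixedPoints.subring (galStableSubring A) U,
      σ⁻¹ • (a : galStableSubring A) - (a : galStableSubring A) ∈ Q := by
    intro a
    rw [hQmem]
    have hF' : σ⁻¹ ((a : galStableSubring A) : AlgebraicClosure ℚ) ∈ F :=
      apply_mem_of_normal F σ⁻¹ (hfixedF a)
    have hB' : ∀ g : AlgebraicClosure ℚ ≃ₐ[ℚ] AlgebraicClosure ℚ,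
        g (σ⁻¹ ((a : galStableSubring A) : AlgebraicClosure ℚ)) ∈ A := fun g =>
      (σ⁻¹ • (a : galStableSubring A)).2 g
    have h1 := hσ _ hF' hB'
    have h2 : σ (σ⁻¹ ((a : galStableSubring A) : AlgebraicClosure ℚ)) =
        ((a : galStableSubring A) : AlgebraicClosure ℚ) := by
      show (σ * σ⁻¹) _ = _
      rw [mul_inv_cancel]; rfl
    rw [h2] at h1
    have h3 := A.nonunits.neg_mem h1
    rw [neg_sub] at h3
    exact h3
  -- the second prime `Q₁ = σ • Q`
  let Q₁ : Ideal (galStableSubring A) := σ • Q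
  have hQ₁mem : ∀ b : galStableSubring A, b ∈ Q₁ ↔ σ⁻¹ • b ∈ Q := fun b =>
    Ideal.mem_pointwise_smul_iff_inv_smul_mem
  haveI : Q₁.IsPrime := by
    have : Q₁ = Q.comap (MulSemiringAction.toRingHom
        (AlgebraicClosure ℚ ≃ₐ[ℚ] AlgebraicClosure ℚ) (galStableSubring A) σ⁻¹) := by
      ext b
      rw [hQ₁mem, Ideal.mem_comap]
      rfl
    rw [this]
    exact Ideal.comap_isPrime _ _
  have hunder : Q₁.under (FixedPoints.subring (galStableSubring A) U) =
      Q.under (FixedPoints.subring (galStableSubring A) U) := by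
    ext a
    rw [Ideal.mem_comap, Ideal.mem_comap]
    show (a : galStableSubring A) ∈ Q₁ ↔ (a : galStableSubring A) ∈ Q
    rw [hQ₁mem]
    constructor
    · intro h
      have := Q.sub_mem h (hcongr' a)
      simpa using this
    · intro h
      have := Q.add_mem (hcongr' a) h
      simpa using this
  obtain ⟨τ, hτ⟩ := Algebra.IsInvariant.exists_smul_of_under_eq_of_profinite
    (A := FixedPoints.subring (galStableSubring A) U) (G := U) Q₁ Q hunder
  -- `σ₂ = τ σ` stabilises `Q`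
  set σ₂ : AlgebraicClosure ℚ ≃ₐ[ℚ] AlgebraicClosure ℚ :=
    (τ : AlgebraicClosure ℚ ≃ₐ[ℚ] AlgebraicClosure ℚ) * σ with hσ₂
  have hstab : σ₂ ∈ MulAction.stabilizer (AlgebraicClosure ℚ ≃ₐ[ℚ] AlgebraicClosure ℚ) Q := by
    rw [MulAction.mem_stabilizer_iff]
    ext b
    rw [Ideal.mem_pointwise_smul_iff_inv_smul_mem]
    have h1 : b ∈ Q ↔ τ⁻¹ • b ∈ Q₁ := by
      conv_lhs => rw [hτ]
      exact Ideal.mem_pointwise_smul_iff_inv_smul_mem
    rw [h1, hQ₁mem]
    have h2 : σ₂⁻¹ • b = σ⁻¹ • (τ⁻¹ • b) := by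
      rw [hσ₂, mul_inv_rev, mul_smul]
      rfl
    rw [h2]
  -- the automorphism of `B ⧸ Q` induced by `σ₂`
  let PG : Ideal (FixedPoints.subring (galStableSubring A)
      (AlgebraicClosure ℚ ≃ₐ[ℚ] AlgebraicClosure ℚ)) := Q.under _
  haveI : Q.LiesOver PG := ⟨rfl⟩
  let PU : Ideal (FixedPoints.subring (galStableSubring A) U) := Q.under _
  haveI : Q.LiesOver PU := ⟨rfl⟩
  let ψ := Ideal.Quotient.stabilizerHom Q PG (AlgebraicClosure ℚ ≃ₐ[ℚ] AlgebraicClosure ℚ)
    ⟨σ₂, hstab⟩
  have hψ : ∀ b : galStableSubring A, ψ (Ideal.Quotient.mk Q b) = Ideal.Quotient.mk Q (σ₂ • b) :=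
    fun b => rfl
  have hσ₂F : ∀ x ∈ F, σ₂ x = σ x := by
    intro x hx
    show (τ : AlgebraicClosure ℚ ≃ₐ[ℚ] AlgebraicClosure ℚ) (σ x) = σ x
    exact hUfix τ _ (apply_mem_of_normal F σ hx)
  have hcomm : ∀ r : (FixedPoints.subring (galStableSubring A) U) ⧸ PU,
      ψ.toRingEquiv (algebraMap _ (galStableSubring A ⧸ Q) r) =
        algebraMap _ (galStableSubring A ⧸ Q) r := by
    intro r
    obtain ⟨a, rfl⟩ := Ideal.Quotient.mk_surjective r
    have e1 : algebraMap ((FixedPoints.subring (galStableSubring A) U) ⧸ PU)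
        (galStableSubring A ⧸ Q) (Ideal.Quotient.mk PU a) =
          Ideal.Quotient.mk Q (a : galStableSubring A) := rfl
    rw [e1]
    show ψ (Ideal.Quotient.mk Q (a : galStableSubring A)) = _
    rw [hψ, Ideal.Quotient.eq, hQmem]
    have h1 : ((σ₂ • (a : galStableSubring A) - (a : galStableSubring A) : galStableSubring A) :
        AlgebraicClosure ℚ) = σ ((a : galStableSubring A) : AlgebraicClosure ℚ) -
          ((a : galStableSubring A) : AlgebraicClosure ℚ) := by
      have h0 : ((σ₂ • (a : galStableSubring A) - (a : galStableSubring A) : galStableSubring A) :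
          AlgebraicClosure ℚ) = σ₂ ((a : galStableSubring A) : AlgebraicClosure ℚ) -
            ((a : galStableSubring A) : AlgebraicClosure ℚ) := rfl
      rw [h0, hσ₂F _ (hfixedF a)]
    rw [h1]
    exact hσ _ (hfixedF a) (a : galStableSubring A).2
  let φ : (galStableSubring A ⧸ Q) ≃ₐ[(FixedPoints.subring (galStableSubring A) U) ⧸ PU]
      (galStableSubring A ⧸ Q) := AlgEquiv.ofRingEquiv (f := ψ.toRingEquiv) hcomm
  obtain ⟨ρ, hρ⟩ := Ideal.Quotient.stabilizerHom_surjective_of_profinite (G := U) PU Q φ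
  -- the corrected element
  refine ⟨σ₂ * ((ρ : U) : AlgebraicClosure ℚ ≃ₐ[ℚ] AlgebraicClosure ℚ)⁻¹, ?_, ?_⟩
  · intro x hx
    have h1 : (((ρ : U) : AlgebraicClosure ℚ ≃ₐ[ℚ] AlgebraicClosure ℚ)⁻¹) x = x := by
      have := hUfix (ρ : U)⁻¹ x hx
      simpa using this
    show σ₂ ((((ρ : U) : AlgebraicClosure ℚ ≃ₐ[ℚ] AlgebraicClosure ℚ)⁻¹) x) = σ x
    rw [h1, hσ₂F x hx]
  · intro b hb
    set b₀ : galStableSubring A := ⟨b, hb⟩ with hb₀
    set b' : galStableSubring A := (ρ : U)⁻¹ • b₀ with hb'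
    have h1 : φ (Ideal.Quotient.mk Q b') = Ideal.Quotient.mk Q (σ₂ • b') := hψ b'
    have h2 : (Ideal.Quotient.stabilizerHom Q PU U ρ) (Ideal.Quotient.mk Q b') =
        Ideal.Quotient.mk Q ((ρ : U) • b') := rfl
    rw [← hρ, h2] at h1
    have h3 : (ρ : U) • b' = b₀ := by
      rw [hb', smul_smul, mul_inv_cancel, one_smul]
    rw [h3, Ideal.Quotient.eq, hQmem] at h1
    have h4 := A.nonunits.neg_mem h1
    have h5 : ((b₀ - σ₂ • b' : galStableSubring A) : AlgebraicClosure ℚ) =
        b - (σ₂ * ((ρ : U) : AlgebraicClosure ℚ ≃ₐ[ℚ] AlgebraicClosure ℚ)⁻¹) b := rfl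
    rw [h5, neg_sub] at h4
    exact h4

/-- An element that is a "Frobenius for `q = 1`" lies in the inertia group. -/
theorem mem_inertiaSubgroupIn_of_isFrobeniusAt_one (A : ValuationSubring (AlgebraicClosure ℚ))
    (σ : AlgebraicClosure ℚ ≃ₐ[ℚ] AlgebraicClosure ℚ) (h : A.IsFrobeniusAt σ 1) :
    σ ∈ A.inertiaSubgroupIn ℚ := by
  obtain ⟨hD, hres⟩ := h
  refine ⟨⟨σ, hD⟩, ?_, rfl⟩
  show (⟨σ, hD⟩ : A.decompositionSubgroup ℚ) ∈ A.inertiaSubgroup ℚ
  rw [ValuationSubring.inertiaSubgroup, MonoidHom.mem_ker]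
  ext x
  have := hres x
  rw [pow_one] at this
  exact this

/-- **Inertia lifting.** Let `F` be a normal subfield of `ℚ̄`, `A` a valuation subring of `ℚ̄` over
the prime `q`, and `σ ∈ Gal(ℚ̄/ℚ)` with `σ x ≡ x mod 𝔪_A` for every algebraic integer `x ∈ F`
(i.e. `σ|F` lies in the inertia group of the prime `𝔪_A ∩ 𝓞_F`).  Then there is `σ'` in the inertia
group of `A` with `σ' = σ` on `F`. -/
theorem exists_mem_inertiaSubgroupIn_of_congr
    (F : IntermediateField ℚ (AlgebraicClosure ℚ)) [Normal ℚ F]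
    (q : ℕ) (hq : q.Prime) (A : ValuationSubring (AlgebraicClosure ℚ)) (hA : A.LiesOverPrime q)
    (σ : AlgebraicClosure ℚ ≃ₐ[ℚ] AlgebraicClosure ℚ)
    (hσ : ∀ x ∈ F, IsIntegral ℤ x → σ x - x ∈ A.nonunits) :
    ∃ σ' ∈ A.inertiaSubgroupIn ℚ, ∀ x ∈ F, σ' x = σ x := by
  have hA' : ((q : ℕ) : AlgebraicClosure ℚ) ∈ A.nonunits := hA
  obtain ⟨σ', hσ'F, hσ'B⟩ := exists_congr_one_on_galStable F A σ
    (fun x hxF hx => congr_on_galStable_of_congr_on_integers hq A hA' F σ hσ x hxF hx)
  have hfrob : A.IsFrobeniusAt σ' 1 :=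
    frob_glue_general 1 A σ' (fun b hb => by simpa using hσ'B b hb)
      (fun x hx => lemmaX_frob q hq A hA' x hx)
  exact ⟨σ', mem_inertiaSubgroupIn_of_isFrobeniusAt_one A σ' hfrob, hσ'F⟩

/-- The decomposition-group version: same hypothesis, conclusion in terms of the action on the
residue field. -/
theorem exists_mem_inertiaSubgroupIn_of_congr'
    (F : IntermediateField ℚ (AlgebraicClosure ℚ)) [Normal ℚ F]
    (q : ℕ) (hq : q.Prime) (A : ValuationSubring (AlgebraicClosure ℚ)) (hA : A.LiesOverPrime q)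
    (σ : AlgebraicClosure ℚ ≃ₐ[ℚ] AlgebraicClosure ℚ)
    (hσ : ∀ x ∈ F, IsIntegral ℤ x → σ x - x ∈ A.nonunits) :
    ∃ σ' ∈ A.inertiaSubgroupIn ℚ, ∀ x : F, σ' (x : AlgebraicClosure ℚ) = σ (x : AlgebraicClosure ℚ) := by
  obtain ⟨σ', h1, h2⟩ := exists_mem_inertiaSubgroupIn_of_congr F q hq A hA σ hσ
  exact ⟨σ', h1, fun x => h2 x x.2⟩

end Fermat.Agent.Common
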